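import Mathlib
import Fermat.Agent.MUL.Orig.Lib.FrobDensity.LogDensity
import Fermat.Agent.MUL.Lib.FrobDensity.EulerZeta
import Fermat.Agent.MUL.Orig.Lib.FrobDensity.Bridge
import Fermat.Agent.MUL.Lib.BadRed.Mod.SSDeg

section MergeWrap_Lib_FrobDensity_Counts -- from Lib/FrobDensity/Counts.lean

set_option autoImplicit false

/-!
# Counting primes of given residue degree (definitions shared by the pieces of F2')
-/

namespace Fermat.Agent.FrobDensity

open NumberField

/-- The number of ideals of `𝓞 F` of norm `p` (for `p` a prime number these are the primes of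
degree one over `p`) whose residue degree in the Galois extension `L/F` is `d`. -/
noncomputable def degCount (F L : Type*) [Field F] [NumberField F] [Field L] [NumberField L]
    [Algebra F L] (d p : ℕ) : ℕ :=
  Nat.card {𝔭 : Ideal (𝓞 F) // Ideal.absNorm 𝔭 = p ∧ 𝔭.inertiaDegIn (𝓞 L) = d}

end Fermat.Agent.FrobDensity
end MergeWrap_Lib_FrobDensity_Counts

section MergeWrap_Lib_FrobDensity_Splitting -- from Lib/FrobDensity/Splitting.lean

set_option autoImplicit false

/-!
# F2' pieces B0 + B1: ramified primes are finite; counting ideals of prime norm in a Galois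
extension (helper59)
-/

namespace Fermat.Agent.FrobDensity

open NumberField IsDedekindDomain
open scoped Pointwise

attribute [local instance] FractionRing.liftAlgebra FractionRing.isScalarTower_liftAlgebra

section B0

variable (F L : Type*) [Field F] [NumberField F] [Field L] [NumberField L] [Algebra F L]

lemma natCast_ne_zero_of_prime {p : ℕ} (hp : p.Prime) : (p : 𝓞 L) ≠ 0 := by
  exact_mod_cast hp.ne_zero

lemma ratPrime_eq_of_mem {p : ℕ} (hp : p.Prime) (v : HeightOneSpectrum (𝓞 L))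
    (hmem : (p : 𝓞 L) ∈ v.asIdeal) : ratPrime v = p := by
  obtain ⟨n, hn, hq, _, hnorm⟩ := exists_absNorm_eq_ratPrime_pow v
  have h1 : Ideal.absNorm v.asIdeal ∣ p ^ Module.finrank ℚ L := by
    have := Ideal.absNorm_dvd_absNorm_of_le
      ((Ideal.span_singleton_le_iff_mem (I := v.asIdeal)).mpr hmem)
    rwa [Ideal.absNorm_span_natCast, NumberField.RingOfIntegers.rank] at this
  rw [hnorm] at h1
  have h2 : ratPrime v ∣ p ^ Module.finrank ℚ L := (dvd_pow_self _ hn.ne').trans h1
  exact (Nat.prime_dvd_prime_iff_eq hq hp).mp (hq.dvd_of_dvd_pow h2)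

/-- **B0**: only finitely many rational primes lie under a prime of `L` ramified over `F`. -/
theorem finite_ramified :
    {p : ℕ | p.Prime ∧ ∃ P : Ideal (𝓞 L), P.IsPrime ∧ (p : 𝓞 L) ∈ P ∧
      P.ramificationIdx (𝓞 F) ≠ 1}.Finite := by
  have hD : differentIdeal (𝓞 F) (𝓞 L) ≠ ⊥ := differentIdeal_ne_bot
  have hfin := Ideal.finite_factors hD
  refine (hfin.image ratPrime).subset ?_
  rintro p ⟨hp, P, hP, hpP, hram⟩
  have hPbot : P ≠ ⊥ := by
    rintro rfl
    exact natCast_ne_zero_of_prime L hp (by simpa using hpP)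
  refine ⟨⟨P, hP, hPbot⟩, ?_, ratPrime_eq_of_mem L hp ⟨P, hP, hPbot⟩ hpP⟩
  show P ∣ differentIdeal (𝓞 F) (𝓞 L)
  rw [dvd_differentIdeal_iff]
  intro hunr
  exact hram (Ideal.ramificationIdx_eq_one_iff.mpr hunr)

end B0

section B1

variable (F L : Type*) [Field F] [NumberField F] [Field L] [NumberField L] [Algebra F L]
  [IsGalois F L]

lemma isPrime_of_absNorm_eq_prime {K : Type*} [Field K] [NumberField K] {p : ℕ} (hp : p.Prime)
    {I : Ideal (𝓞 K)} (h : Ideal.absNorm I = p) : I.IsPrime :=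
  Ideal.isPrime_of_irreducible_absNorm (Nat.prime_iff.mp (h.symm ▸ hp)).irreducible

omit [IsGalois F L] in
lemma absNorm_under_and_inertiaDeg {p : ℕ} (hp : p.Prime) {P : Ideal (𝓞 L)}
    (h : Ideal.absNorm P = p) :
    Ideal.absNorm (P.under (𝓞 F)) = p ∧ P.inertiaDeg (𝓞 F) = 1 := by
  haveI := isPrime_of_absNorm_eq_prime hp h
  have := Ideal.absNorm_pow_inertiaDeg (P.under (𝓞 F)) P
  rw [h] at this
  exact (Nat.Prime.pow_eq_iff hp).mp this

lemma natCast_mem_of_absNorm_eq {K : Type*} [Field K] [NumberField K] {p : ℕ}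
    {I : Ideal (𝓞 K)} (h : Ideal.absNorm I = p) : (p : 𝓞 K) ∈ I := by
  have := Ideal.absNorm_mem I
  rwa [h] at this

/-- the fibre of `P ↦ P ∩ 𝓞 F` over a prime `𝔭` of norm `p` and residue degree one -/
lemma card_fibre_eq_finrank {p : ℕ} (hp : p.Prime)
    (hunr : ∀ P : Ideal (𝓞 L), P.IsPrime → (p : 𝓞 L) ∈ P → P.ramificationIdx (𝓞 F) = 1)
    (𝔭 : Ideal (𝓞 F)) (h𝔭 : Ideal.absNorm 𝔭 = p) (hf : 𝔭.inertiaDegIn (𝓞 L) = 1) :
    Nat.card {P : Ideal (𝓞 L) // Ideal.absNorm P = p ∧ P.under (𝓞 F) = 𝔭} =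
      Module.finrank F L := by
  haveI h𝔭prime : 𝔭.IsPrime := isPrime_of_absNorm_eq_prime hp h𝔭
  have hmem𝔭 : (p : 𝓞 F) ∈ 𝔭 := natCast_mem_of_absNorm_eq h𝔭
  -- identify the fibre with the primes over `𝔭`
  have hset : {P : Ideal (𝓞 L) | Ideal.absNorm P = p ∧ P.under (𝓞 F) = 𝔭} =
      𝔭.primesOver (𝓞 L) := by
    ext P
    constructor
    · rintro ⟨hN, hu⟩
      exact ⟨isPrime_of_absNorm_eq_prime hp hN, ⟨hu.symm⟩⟩
    · rintro ⟨hP, hlo⟩
      haveI := hP
      haveI := hlo
      have h1 := Ideal.absNorm_pow_inertiaDeg 𝔭 P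
      rw [← Ideal.inertiaDegIn_eq_inertiaDeg 𝔭 P Gal(L/F), hf, pow_one, h𝔭] at h1
      exact ⟨h1.symm, (Ideal.over_def P 𝔭).symm⟩
  have hcard : Nat.card {P : Ideal (𝓞 L) // Ideal.absNorm P = p ∧ P.under (𝓞 F) = 𝔭} =
      (𝔭.primesOver (𝓞 L)).ncard := by
    rw [← hset]
    rfl
  rw [hcard]
  have hfund := Ideal.ncard_primesOver_mul_ramificationIdxIn_mul_inertiaDegIn 𝔭 (𝓞 L) Gal(L/F)
  obtain ⟨⟨Q, hQ, hQlo⟩⟩ := (inferInstance : Nonempty (𝔭.primesOver (𝓞 L)))
  haveI := hQ
  haveI := hQlo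
  have hpQ : (p : 𝓞 L) ∈ Q := by
    have : algebraMap (𝓞 F) (𝓞 L) (p : 𝓞 F) ∈ Q := by
      have h2 : (p : 𝓞 F) ∈ Q.under (𝓞 F) := by
        rw [← Ideal.over_def Q 𝔭]
        exact hmem𝔭
      exact h2
    simpa using this
  have he : 𝔭.ramificationIdxIn (𝓞 L) = 1 := by
    rw [Ideal.ramificationIdxIn_eq_ramificationIdx 𝔭 Q Gal(L/F)]
    exact hunr Q hQ hpQ
  rw [he, hf, mul_one, mul_one, IsGalois.card_aut_eq_finrank] at hfund
  exact hfund

/-- **B1**: for a rational prime `p` unramified in `L/F` (Galois of degree `n`), the number of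
ideals of `𝓞 L` of norm `p` is `n` times the number of primes of `𝓞 F` of norm `p` with residue
degree one in `L`. -/
theorem idealCount_eq_mul_degCount_one (p : ℕ) (hp : p.Prime)
    (hunr : ∀ P : Ideal (𝓞 L), P.IsPrime → (p : 𝓞 L) ∈ P → P.ramificationIdx (𝓞 F) = 1) :
    idealCount L p = Module.finrank F L * degCount F L 1 p := by
  classical
  unfold idealCount degCount
  set X := {P : Ideal (𝓞 L) // Ideal.absNorm P = p} with hX
  set Y := {𝔭 : Ideal (𝓞 F) // Ideal.absNorm 𝔭 = p ∧ 𝔭.inertiaDegIn (𝓞 L) = 1} with hY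
  have hXfin : Finite X := Ideal.finite_setOfPred_absNorm_eq p
  have hYfin : Finite Y := by
    have h0 : Finite {𝔭 : Ideal (𝓞 F) // Ideal.absNorm 𝔭 = p} :=
      Ideal.finite_setOfPred_absNorm_eq p
    exact Finite.of_injective (fun y : Y ↦ (⟨y.1, y.2.1⟩ : {𝔭 : Ideal (𝓞 F) // Ideal.absNorm 𝔭 = p}))
      (fun a b h ↦ Subtype.ext (congrArg (fun z : {𝔭 : Ideal (𝓞 F) // Ideal.absNorm 𝔭 = p} ↦ z.1) h))
  letI := Fintype.ofFinite Y
  let π : X → Y := fun P ↦ ⟨P.1.under (𝓞 F), by
    haveI := isPrime_of_absNorm_eq_prime hp P.2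
    obtain ⟨h1, h2⟩ := absNorm_under_and_inertiaDeg F L hp P.2
    refine ⟨h1, ?_⟩
    haveI : P.1.LiesOver (P.1.under (𝓞 F)) := ⟨rfl⟩
    haveI : (P.1.under (𝓞 F)).IsPrime := isPrime_of_absNorm_eq_prime hp h1
    rw [Ideal.inertiaDegIn_eq_inertiaDeg (P.1.under (𝓞 F)) P.1 Gal(L/F)]
    exact h2⟩
  have hfib : ∀ y : Y, Nat.card {x : X // π x = y} = Module.finrank F L := by
    intro y
    rw [← card_fibre_eq_finrank F L hp hunr y.1 y.2.1 y.2.2]
    refine Nat.card_congr ?_
    exact
      { toFun := fun x ↦ ⟨x.1.1, x.1.2, congrArg Subtype.val x.2⟩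
        invFun := fun P ↦ ⟨⟨P.1, P.2.1⟩, Subtype.ext P.2.2⟩
        left_inv := fun x ↦ rfl
        right_inv := fun P ↦ rfl }
  rw [Nat.card_congr (Equiv.sigmaFiberEquiv π).symm, Nat.card_sigma]
  simp only [hfib, Finset.sum_const, Finset.card_univ, smul_eq_mul]
  rw [Nat.card_eq_fintype_card, mul_comm]

end B1

end Fermat.Agent.FrobDensity
end MergeWrap_Lib_FrobDensity_Splitting

section MergeWrap_Lib_FrobDensity_TowerDegree -- from Lib/FrobDensity/TowerDegree.lean

set_option autoImplicit false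

/-!
# F2' piece B2a: residue degree in an intermediate Galois extension via the decomposition group

`inertiaDegIn_eq_one_iff_stabilizer_le`: for `F ⊆ M ⊆ L` with `L/F`, `M/F` Galois and `P` a prime
of `L` unramified over `𝔭 = P ∩ F`, the residue degree of `𝔭` in `M` is `1` iff the decomposition
group of `P` is contained in `Gal(L/M)`.
-/

namespace Fermat.Agent.FrobDensity

open NumberField
open scoped Pointwise

variable (F L : Type*) [Field F] [NumberField F] [Field L] [NumberField L] [Algebra F L] [IsGalois F L]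

omit [NumberField F] [NumberField L] [IsGalois F L] in
/-- The action of `Gal(L/M)` on ideals of `𝓞 L` is the restriction of the action of `Gal(L/F)`. -/
theorem towerDegree_smul_restrictScalars (M : IntermediateField F L) (σ : Gal(L/M))
    (P : Ideal (𝓞 L)) : (σ.restrictScalars F) • P = σ • P := by
  ext x
  simp only [Ideal.pointwise_smul_eq_comap, Ideal.mem_comap]
  rfl

omit [NumberField F] [NumberField L] [IsGalois F L] in
/-- The stabilizer of `P` in `Gal(L/M)` has the same cardinality as the intersection of the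
stabilizer of `P` in `Gal(L/F)` with the fixing subgroup of `M`. -/
theorem towerDegree_card_stabilizer_inf (M : IntermediateField F L) (P : Ideal (𝓞 L)) :
    Nat.card (MulAction.stabilizer Gal(L/M) P) =
      Nat.card ↥(MulAction.stabilizer Gal(L/F) P ⊓ M.fixingSubgroup) := by
  refine Nat.card_congr ?_
  refine
    { toFun := fun σ => ⟨(σ.1).restrictScalars F, Subgroup.mem_inf.mpr ⟨?_, ?_⟩⟩
      invFun := fun τ => ⟨M.fixingSubgroupEquiv ⟨τ.1, (Subgroup.mem_inf.mp τ.2).2⟩, ?_⟩
      left_inv := ?_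
      right_inv := ?_ }
  · rw [MulAction.mem_stabilizer_iff, towerDegree_smul_restrictScalars]
    exact σ.2
  · rw [IntermediateField.mem_fixingSubgroup_iff]
    intro x hx
    exact σ.1.commutes ⟨x, hx⟩
  · rw [MulAction.mem_stabilizer_iff, ← towerDegree_smul_restrictScalars]
    have := (Subgroup.mem_inf.mp τ.2).1
    rw [MulAction.mem_stabilizer_iff] at this
    have hτ : AlgEquiv.restrictScalars F
        (M.fixingSubgroupEquiv ⟨τ.1, (Subgroup.mem_inf.mp τ.2).2⟩) = τ.1 := by
      ext x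
      rfl
    rw [hτ]
    exact this
  · intro σ
    ext x
    rfl
  · intro τ
    ext x
    rfl

theorem inertiaDegIn_eq_one_iff_stabilizer_le (M : IntermediateField F L) [IsGalois F M]
    (𝔭 : Ideal (𝓞 F)) [𝔭.IsPrime] (h0 : 𝔭 ≠ ⊥) (P : Ideal (𝓞 L)) [P.IsPrime] [P.LiesOver 𝔭]
    (hunr : P.ramificationIdx (𝓞 F) = 1) :
    𝔭.inertiaDegIn (𝓞 M) = 1 ↔ MulAction.stabilizer Gal(L/F) P ≤ M.fixingSubgroup := by
  have _h0 := h0
  -- the prime of `M` below `P`
  set 𝔮 : Ideal (𝓞 M) := P.under (𝓞 M) with h𝔮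
  have : 𝔮.IsPrime := Ideal.IsPrime.under (𝓞 M) P
  have : P.LiesOver 𝔮 := Ideal.over_under P
  have : 𝔮.LiesOver 𝔭 := Ideal.LiesOver.tower_bot P 𝔮 𝔭
  -- tower laws
  have hf : P.inertiaDeg (𝓞 F) = 𝔮.inertiaDeg (𝓞 F) * P.inertiaDeg (𝓞 M) :=
    Ideal.inertiaDeg_tower 𝔮 P
  have he : P.ramificationIdx (𝓞 F) = 𝔮.ramificationIdx (𝓞 F) * P.ramificationIdx (𝓞 M) :=
    Ideal.ramificationIdx_tower 𝔮 P
  have he' : P.ramificationIdx (𝓞 M) = 1 := by
    rw [hunr] at he
    exact Nat.eq_one_of_mul_eq_one_left he.symm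
  -- cardinalities of the decomposition groups
  have hD : Nat.card (MulAction.stabilizer Gal(L/F) P) = P.inertiaDeg (𝓞 F) := by
    rw [Ideal.card_stabilizer_eq 𝔭 P, Ideal.ramificationIdxIn_eq_ramificationIdx 𝔭 P Gal(L/F),
      Ideal.inertiaDegIn_eq_inertiaDeg 𝔭 P Gal(L/F), hunr, one_mul]
  have hDM : Nat.card ↥(MulAction.stabilizer Gal(L/F) P ⊓ M.fixingSubgroup) =
      P.inertiaDeg (𝓞 M) := by
    rw [← towerDegree_card_stabilizer_inf, Ideal.card_stabilizer_eq 𝔮 P,
      Ideal.ramificationIdxIn_eq_ramificationIdx 𝔮 P Gal(L/M),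
      Ideal.inertiaDegIn_eq_inertiaDeg 𝔮 P Gal(L/M), he', one_mul]
  have hfM : 𝔭.inertiaDegIn (𝓞 M) = 𝔮.inertiaDeg (𝓞 F) :=
    Ideal.inertiaDegIn_eq_inertiaDeg 𝔭 𝔮 Gal(M/F)
  have hpos : 0 < P.inertiaDeg (𝓞 M) := by
    rw [← hDM]
    exact Nat.card_pos
  rw [hfM]
  constructor
  · intro h1
    rw [h1, one_mul] at hf
    have hcard : Nat.card ↥(MulAction.stabilizer Gal(L/F) P ⊓ M.fixingSubgroup) =
        Nat.card (MulAction.stabilizer Gal(L/F) P) := by rw [hD, hDM, hf]
    have hle : MulAction.stabilizer Gal(L/F) P ⊓ M.fixingSubgroup ≤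
        MulAction.stabilizer Gal(L/F) P := inf_le_left
    have heq := Subgroup.eq_of_le_of_card_ge hle (le_of_eq hcard.symm)
    intro σ hσ
    have : σ ∈ MulAction.stabilizer Gal(L/F) P ⊓ M.fixingSubgroup := by rw [heq]; exact hσ
    exact (Subgroup.mem_inf.mp this).2
  · intro hle
    have heq : MulAction.stabilizer Gal(L/F) P ⊓ M.fixingSubgroup =
        MulAction.stabilizer Gal(L/F) P := inf_eq_left.mpr hle
    rw [heq, hD] at hDM
    rw [hDM] at hf
    -- f = f' * f with f > 0
    have : 𝔮.inertiaDeg (𝓞 F) * P.inertiaDeg (𝓞 M) = 1 * P.inertiaDeg (𝓞 M) := by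
      rw [one_mul]; exact hf.symm
    exact Nat.eq_of_mul_eq_mul_right hpos this

end Fermat.Agent.FrobDensity
end MergeWrap_Lib_FrobDensity_TowerDegree

section MergeWrap_Lib_FrobDensity_Cyclic -- from Lib/FrobDensity/Cyclic.lean

set_option autoImplicit false

/-!
# Inert primes of degree one in a cyclic extension (divisor induction)
-/

namespace Fermat.Agent.FrobDensity

open NumberField
open scoped Pointwise

section general

variable (F L : Type*) [Field F] [NumberField F] [Field L] [NumberField L] [Algebra F L]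

/-- The finite set of ideals of `𝓞 F` of norm `p`. -/
noncomputable def normFinset (p : ℕ) : Finset (Ideal (𝓞 F)) :=
  (Ideal.finite_setOfPred_absNorm_eq (S := 𝓞 F) p).toFinset

variable {F} in
theorem mem_normFinset {p : ℕ} {𝔭 : Ideal (𝓞 F)} : 𝔭 ∈ normFinset F p ↔ Ideal.absNorm 𝔭 = p := by
  simp [normFinset]

open Classical in
theorem degCount_eq_card_filter (d p : ℕ) :
    degCount F L d p = ((normFinset F p).filter fun 𝔭 => 𝔭.inertiaDegIn (𝓞 L) = d).card := by
  rw [degCount, ← Nat.card_eq_finsetCard]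
  refine Nat.card_congr (Equiv.subtypeEquivRight fun 𝔭 => ?_)
  simp [mem_normFinset]

theorem idealCount_eq_card_normFinset (p : ℕ) : idealCount F p = (normFinset F p).card := by
  rw [idealCount, ← Nat.card_eq_finsetCard]
  exact Nat.card_congr (Equiv.subtypeEquivRight fun 𝔭 => by simp [mem_normFinset])

theorem degCount_le_idealCount (d p : ℕ) : degCount F L d p ≤ idealCount F p := by
  classical
  rw [degCount_eq_card_filter, idealCount_eq_card_normFinset]
  exact Finset.card_filter_le _ _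

open Classical in
/-- Fibrewise count: the primes of norm `p` whose residue degree divides `d`. -/
theorem sum_divisors_degCount (d p : ℕ) (hd : d ≠ 0) :
    ∑ d' ∈ d.divisors, degCount F L d' p =
      ((normFinset F p).filter fun 𝔭 => 𝔭.inertiaDegIn (𝓞 L) ∣ d).card := by
  rw [Finset.card_eq_sum_card_fiberwise (f := fun 𝔭 : Ideal (𝓞 F) => 𝔭.inertiaDegIn (𝓞 L))
    (t := d.divisors)]
  · refine Finset.sum_congr rfl fun d' hd' => ?_
    rw [degCount_eq_card_filter, Finset.filter_filter]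
    congr 1
    ext 𝔭
    simp only [Finset.mem_filter]
    constructor
    · rintro ⟨h1, h2⟩
      exact ⟨h1, h2 ▸ (Nat.mem_divisors.mp hd').1, h2⟩
    · rintro ⟨h1, -, h2⟩
      exact ⟨h1, h2⟩
  · intro 𝔭 h𝔭
    simp only [Finset.coe_filter, Set.mem_ofPred_eq] at h𝔭
    simpa [Nat.mem_divisors, hd] using h𝔭.2

end general

section galois

variable (F L : Type*) [Field F] [NumberField F] [Field L] [NumberField L] [Algebra F L]
  [IsGalois F L]

/-- The finite set of rational primes lying under a prime of `L` ramified over `F`. -/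
noncomputable def ramifiedPrimes : Set Nat.Primes :=
  {p | ∃ P : Ideal (𝓞 L), P.IsPrime ∧ ((p : ℕ) : 𝓞 L) ∈ P ∧ P.ramificationIdx (𝓞 F) ≠ 1}

omit [IsGalois F L] in
theorem finite_ramifiedPrimes : (ramifiedPrimes F L).Finite := by
  have h := finite_ramified F L
  have hinj : Set.InjOn (fun p : Nat.Primes => (p : ℕ)) (ramifiedPrimes F L) :=
    fun p _ q _ hpq => Subtype.ext hpq
  refine Set.Finite.of_finite_image (h.subset ?_) hinj
  rintro _ ⟨p, hp, rfl⟩
  exact ⟨p.2, hp⟩

/-- The primes of degree one of `F` that split completely in the Galois extension `L/F` have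
logarithmic density `1/[L:F]`. -/
theorem hasLogDensity_degCount_one :
    HasLogDensity (fun p : Nat.Primes => (degCount F L 1 p : ℝ)) (1 / Module.finrank F L) := by
  have hA := (hasLogDensity_idealCount L).const_mul (1 / (Module.finrank F L : ℝ))
  rw [mul_one] at hA
  refine hA.congr_finite ((finite_ramifiedPrimes F L).subset fun p hp => ?_)
  by_contra hpr
  apply hp
  have hunr : ∀ P : Ideal (𝓞 L), P.IsPrime → ((p : ℕ) : 𝓞 L) ∈ P →
      P.ramificationIdx (𝓞 F) = 1 := by
    intro P hP hpP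
    by_contra h
    exact hpr ⟨P, hP, hpP, h⟩
  have h1 := idealCount_eq_mul_degCount_one F L p p.2 hunr
  have hn : (Module.finrank F L : ℝ) ≠ 0 := by
    exact_mod_cast (Module.finrank_pos (R := F) (M := L)).ne'
  change 1 / (Module.finrank F L : ℝ) * (idealCount L p : ℝ) = (degCount F L 1 p : ℝ)
  rw [h1]
  push_cast
  field_simp

end galois

section group

variable (G : Type*) [Group G] [IsCyclic G]

/-- In a cyclic group, the subgroup of the elements killed by `d`. -/
noncomputable def powKer (d : ℕ) : Subgroup G :=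
  letI : CommGroup G := IsCyclic.commGroup
  (powMonoidHom d : G →* G).ker

variable {G}

theorem mem_powKer {d : ℕ} {h : G} : h ∈ powKer G d ↔ h ^ d = 1 := by
  let _ : CommGroup G := IsCyclic.commGroup
  exact MonoidHom.mem_ker

theorem card_powKer [Finite G] {d : ℕ} (hd : d ∣ Nat.card G) : Nat.card (powKer G d) = d := by
  let _ : CommGroup G := IsCyclic.commGroup
  have := IsCyclic.card_powMonoidHom_ker G d
  rw [Nat.gcd_eq_right hd] at this
  exact this

instance normal_powKer (d : ℕ) : (powKer G d).Normal := by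
  let _ : CommGroup G := IsCyclic.commGroup
  exact MonoidHom.normal_ker _

theorem le_powKer_iff [Finite G] (D : Subgroup G) (d : ℕ) :
    D ≤ powKer G d ↔ Nat.card D ∣ d := by
  constructor
  · intro h
    obtain ⟨g, hg⟩ := IsCyclic.exists_generator (α := D)
    have h1 : orderOf g = Nat.card D := orderOf_eq_card_of_forall_mem_zpowers hg
    have h2 : (g : G) ^ d = 1 := mem_powKer.mp (h g.2)
    have h3 : g ^ d = 1 := Subtype.ext (by simpa using h2)
    rw [← h1]
    exact orderOf_dvd_of_pow_eq_one h3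
  · rintro ⟨c, hc⟩ h hh
    rw [mem_powKer, hc, pow_mul]
    have : (⟨h, hh⟩ : D) ^ Nat.card D = 1 := pow_card_eq_one'
    have h2 : h ^ Nat.card D = 1 := by
      have h3 := congrArg Subtype.val this
      rwa [Subgroup.coe_pow, Subgroup.coe_one] at h3
    rw [h2, one_pow]

end group

section cyclic

variable (F L : Type*) [Field F] [NumberField F] [Field L] [NumberField L] [Algebra F L]
  [IsGalois F L] [IsCyclic Gal(L/F)]

/-- The subfield of the cyclic extension `L/F` fixed by the elements of order dividing `d`. -/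
noncomputable def cycField (d : ℕ) : IntermediateField F L :=
  IntermediateField.fixedField (powKer Gal(L/F) d)

instance isGalois_cycField (d : ℕ) : IsGalois F (cycField F L d) :=
  IsGalois.of_fixedField_normal_subgroup _

omit [IsGalois F L] in
theorem fixingSubgroup_cycField (d : ℕ) :
    (cycField F L d).fixingSubgroup = powKer Gal(L/F) d :=
  IntermediateField.fixingSubgroup_fixedField _

theorem finrank_cycField_mul {d : ℕ} (hd : d ∣ Module.finrank F L) :
    Module.finrank F (cycField F L d) * d = Module.finrank F L := by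
  rw [IntermediateField.finrank_eq_fixingSubgroup_index, fixingSubgroup_cycField]
  have h1 := Subgroup.index_mul_card (powKer Gal(L/F) d)
  rw [card_powKer (by rwa [IsGalois.card_aut_eq_finrank]), IsGalois.card_aut_eq_finrank] at h1
  exact h1

/-- For a prime `𝔭` of norm `p` (unramified in `L`), `𝔭` splits completely in `cycField d`
iff its residue degree in `L` divides `d`. -/
theorem inertiaDegIn_cycField_eq_one_iff {p : ℕ} (hp : p.Prime)
    (hunr : ∀ P : Ideal (𝓞 L), P.IsPrime → (p : 𝓞 L) ∈ P → P.ramificationIdx (𝓞 F) = 1)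
    (d : ℕ) (𝔭 : Ideal (𝓞 F)) (h𝔭 : Ideal.absNorm 𝔭 = p) :
    𝔭.inertiaDegIn (𝓞 (cycField F L d)) = 1 ↔ 𝔭.inertiaDegIn (𝓞 L) ∣ d := by
  have : 𝔭.IsPrime := isPrime_of_absNorm_eq_prime hp h𝔭
  have h0 : 𝔭 ≠ ⊥ := by
    rintro rfl
    rw [Ideal.absNorm_bot] at h𝔭
    exact hp.ne_zero h𝔭.symm
  obtain ⟨⟨P, hP, hPl⟩⟩ : Nonempty (𝔭.primesOver (𝓞 L)) := inferInstance
  have hpP : (p : 𝓞 L) ∈ P := by
    have h1 : (p : 𝓞 F) ∈ 𝔭 := natCast_mem_of_absNorm_eq h𝔭
    have h2 : algebraMap (𝓞 F) (𝓞 L) (p : 𝓞 F) ∈ P := by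
      rw [hPl.over] at h1
      exact h1
    simpa using h2
  have he : P.ramificationIdx (𝓞 F) = 1 := hunr P hP hpP
  rw [inertiaDegIn_eq_one_iff_stabilizer_le F L (cycField F L d) 𝔭 h0 P he,
    fixingSubgroup_cycField, le_powKer_iff, Ideal.card_stabilizer_eq 𝔭 P,
    Ideal.ramificationIdxIn_eq_ramificationIdx 𝔭 P Gal(L/F), he, one_mul]

theorem degCount_cycField_eq_sum {p : ℕ} (hp : p.Prime)
    (hunr : ∀ P : Ideal (𝓞 L), P.IsPrime → (p : 𝓞 L) ∈ P → P.ramificationIdx (𝓞 F) = 1)
    {d : ℕ} (hd : d ≠ 0) :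
    degCount F (cycField F L d) 1 p = ∑ d' ∈ d.divisors, degCount F L d' p := by
  classical
  rw [sum_divisors_degCount F L d p hd, degCount_eq_card_filter]
  congr 1
  refine Finset.filter_congr fun 𝔭 h𝔭 => ?_
  exact inertiaDegIn_cycField_eq_one_iff F L hp hunr d 𝔭 (mem_normFinset.mp h𝔭)

/-- The sum over the divisors `d'` of `d` of the counts of primes of residue degree `d'` has
logarithmic density `d/n`. -/
theorem hasLogDensity_sum_divisors {d : ℕ} (hd : d ∣ Module.finrank F L) :
    HasLogDensity (fun p : Nat.Primes => ∑ d' ∈ d.divisors, (degCount F L d' p : ℝ))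
      (d / Module.finrank F L) := by
  have hn : 0 < Module.finrank F L := Module.finrank_pos
  have hd0 : d ≠ 0 := fun h => hn.ne' (by simpa [h] using hd)
  have h1 := hasLogDensity_degCount_one F (cycField F L d)
  have h2 : (1 : ℝ) / Module.finrank F (cycField F L d) = d / Module.finrank F L := by
    have h3 := finrank_cycField_mul F L hd
    have h4 : (Module.finrank F (cycField F L d) : ℝ) * d = Module.finrank F L := by
      exact_mod_cast h3
    have h5 : (Module.finrank F (cycField F L d) : ℝ) ≠ 0 := by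
      intro h
      rw [h, zero_mul] at h4
      exact hn.ne' (by exact_mod_cast h4.symm)
    have h6 : (Module.finrank F L : ℝ) ≠ 0 := by exact_mod_cast hn.ne'
    field_simp
    linarith
  rw [h2] at h1
  refine h1.congr_finite ((finite_ramifiedPrimes F L).subset fun p hp => ?_)
  by_contra hpr
  apply hp
  have hunr : ∀ P : Ideal (𝓞 L), P.IsPrime → ((p : ℕ) : 𝓞 L) ∈ P →
      P.ramificationIdx (𝓞 F) = 1 := by
    intro P hP hpP
    by_contra h
    exact hpr ⟨P, hP, hpP, h⟩
  change (degCount F (cycField F L d) 1 p : ℝ) = ∑ d' ∈ d.divisors, (degCount F L d' p : ℝ)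
  rw [degCount_cycField_eq_sum F L p.2 hunr hd0]
  push_cast
  rfl

/-- **Divisor induction**: in a cyclic extension `L/F` of degree `n`, for `d ∣ n` the primes of
degree one of `F` with residue degree exactly `d` in `L` have logarithmic density `φ(d)/n`. -/
theorem hasLogDensity_degCount (d : ℕ) (hd : d ∣ Module.finrank F L) :
    HasLogDensity (fun p : Nat.Primes => (degCount F L d p : ℝ))
      (Nat.totient d / Module.finrank F L) := by
  have hn : 0 < Module.finrank F L := Module.finrank_pos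
  induction d using Nat.strong_induction_on with
  | _ d ih =>
    have hd0 : d ≠ 0 := fun h => hn.ne' (by simpa [h] using hd)
    have hsum := hasLogDensity_sum_divisors F L hd
    have hprop : HasLogDensity
        (fun p : Nat.Primes => ∑ d' ∈ d.properDivisors, (degCount F L d' p : ℝ))
        (∑ d' ∈ d.properDivisors, (Nat.totient d' : ℝ) / Module.finrank F L) := by
      refine HasLogDensity.finset_sum d.properDivisors
        (fun d' p => (degCount F L d' p : ℝ)) (fun d' => (Nat.totient d' : ℝ) / _) ?_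
      intro d' hd'
      rw [Nat.mem_properDivisors] at hd'
      exact ih d' hd'.2 (hd'.1.trans hd)
    have hsub := hsum.sub hprop
    have hc : (d : ℝ) / Module.finrank F L -
        ∑ d' ∈ d.properDivisors, (Nat.totient d' : ℝ) / Module.finrank F L =
        Nat.totient d / Module.finrank F L := by
      have h1 := Nat.sum_totient d
      rw [← Nat.insert_self_properDivisors hd0,
        Finset.sum_insert (Nat.self_notMem_properDivisors)] at h1
      have h2 : (d : ℝ) = Nat.totient d + ∑ d' ∈ d.properDivisors, (Nat.totient d' : ℝ) := by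
        exact_mod_cast h1.symm
      rw [← Finset.sum_div]
      field_simp
      linarith
    rw [hc] at hsub
    refine hsub.congr_finite ?_
    convert Set.finite_empty
    ext p
    simp only [Set.mem_ofPred_eq, Set.mem_empty_iff_false, iff_false, not_not, ne_eq]
    rw [← Nat.insert_self_properDivisors hd0,
      Finset.sum_insert (Nat.self_notMem_properDivisors)]
    ring

/-- In a cyclic extension `L/F` of number fields, outside any finite set of rational primes
there is a prime of `F` of degree one which is inert in `L` and lies over a prime unramified in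
`L/F`. -/
theorem exists_inert (S : Set Nat.Primes) (hS : S.Finite) :
    ∃ (p : Nat.Primes) (𝔭 : Ideal (𝓞 F)), p ∉ S ∧ Ideal.absNorm 𝔭 = p ∧
      𝔭.inertiaDegIn (𝓞 L) = Module.finrank F L := by
  have hn : 0 < Module.finrank F L := Module.finrank_pos
  have h := hasLogDensity_degCount F L (Module.finrank F L) dvd_rfl
  have hc : (Nat.totient (Module.finrank F L) : ℝ) / Module.finrank F L ≠ 0 := by
    have h1 : 0 < Nat.totient (Module.finrank F L) := Nat.totient_pos.mpr hn
    positivity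
  obtain ⟨p, hpS, hp⟩ := h.exists_not_mem_ne_zero hc S hS
  have hpos : degCount F L (Module.finrank F L) p ≠ 0 := by
    intro h0
    exact hp (by simp [h0])
  rw [degCount] at hpos
  have hne : Nonempty {𝔭 : Ideal (𝓞 F) // Ideal.absNorm 𝔭 = p ∧
      𝔭.inertiaDegIn (𝓞 L) = Module.finrank F L} := by
    by_contra hempty
    rw [not_nonempty_iff] at hempty
    exact hpos Nat.card_of_isEmpty
  obtain ⟨𝔭, h1, h2⟩ := hne
  exact ⟨p, 𝔭, hpS, h1, h2⟩

end cyclic

end Fermat.Agent.FrobDensity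
end MergeWrap_Lib_FrobDensity_Cyclic

section MergeWrap_Lib_FrobDensity_FrobGen -- from Lib/FrobDensity/FrobGen.lean

/-!
# F2' piece B3 (helper31): an inert prime of the fixed field of `⟨g⟩` has Frobenius `g ^ k`

`L/ℚ` Galois, `g ∈ Gal(L/ℚ)`, `F = L^{⟨g⟩}`, `𝔭 ⊂ 𝓞 F` of norm `p` with residue degree
`[L : F] = orderOf g` in `L`.  Then for a prime `P` of `𝓞 L` over `𝔭` the arithmetic Frobenius of
`P` over `𝔭` lies in `⟨g⟩ = Gal(L/F)`, is congruent to `x ↦ x ^ p` modulo `P`, and has order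
`orderOf g` (it generates the Galois group of the residue field extension, of degree
`orderOf g`); so it is `g ^ k` with `k` prime to `orderOf g`.
-/

set_option autoImplicit false

namespace Fermat.Agent.FrobDensity

open NumberField
open scoped Pointwise

/-- Iterating a Frobenius congruence `σ x ≡ x ^ q (mod P)`. -/
lemma frobGen_pow_congr {S : Type*} [CommRing S] {G : Type*} [Group G] [MulSemiringAction G S]
    (P : Ideal S) (σ : G) (q : ℕ) (h : ∀ x : S, σ • x - x ^ q ∈ P) (j : ℕ) (x : S) :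
    (σ ^ j) • x - x ^ (q ^ j) ∈ P := by
  induction j generalizing x with
  | zero => simp
  | succ j ih =>
    have h1 := ih (σ • x)
    have h2 : (σ • x) ^ (q ^ j) - (x ^ q) ^ (q ^ j) ∈ P :=
      Ideal.mem_of_dvd P (sub_dvd_pow_sub_pow (σ • x) (x ^ q) (q ^ j)) (h x)
    have h3 : (σ ^ (j + 1)) • x - x ^ (q ^ (j + 1)) =
        ((σ ^ j) • (σ • x) - (σ • x) ^ (q ^ j)) + ((σ • x) ^ (q ^ j) - (x ^ q) ^ (q ^ j)) := by
      rw [pow_succ, mul_smul, ← pow_mul, pow_succ' q j]
      ring
    rw [h3]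
    exact add_mem h1 h2

/-- In a finite field `k` with `p ^ n` elements, if `y ^ (p ^ m) = y` for all `y` and `m ≠ 0`,
then `n ≤ m`. -/
lemma frobGen_le_of_pow_eq {k : Type*} [Field k] [Finite k] {p n m : ℕ} (hp : p.Prime)
    (hcard : Nat.card k = p ^ n) (hm : m ≠ 0) (h : ∀ y : k, y ^ (p ^ m) = y) : n ≤ m := by
  classical
  have := Fintype.ofFinite k
  have hdeg := FiniteField.X_pow_card_pow_sub_X_natDegree_eq k hm hp.one_lt
  have hne : (Polynomial.X ^ p ^ m - Polynomial.X : Polynomial k) ≠ 0 :=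
    FiniteField.X_pow_card_pow_sub_X_ne_zero k hm hp.one_lt
  have hroots : ∀ y : k, y ∈ (Polynomial.X ^ p ^ m - Polynomial.X : Polynomial k).roots := by
    intro y
    rw [Polynomial.mem_roots hne]
    simp [h y]
  have h1 : Fintype.card k ≤ p ^ m := by
    calc Fintype.card k = (Finset.univ : Finset k).card := Finset.card_univ.symm
      _ ≤ (Polynomial.X ^ p ^ m - Polynomial.X : Polynomial k).roots.toFinset.card :=
          Finset.card_le_card fun y _ => Multiset.mem_toFinset.mpr (hroots y)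
      _ ≤ Multiset.card (Polynomial.X ^ p ^ m - Polynomial.X : Polynomial k).roots :=
          Multiset.toFinset_card_le _
      _ ≤ (Polynomial.X ^ p ^ m - Polynomial.X : Polynomial k).natDegree :=
          Polynomial.card_roots' _
      _ = p ^ m := hdeg
  rw [← Nat.card_eq_fintype_card, hcard] at h1
  exact (Nat.pow_le_pow_iff_right hp.one_lt).mp h1

/-- **B3**: an inert degree-one prime of the fixed field of `⟨g⟩` has arithmetic Frobenius
`g ^ k` with `k` prime to the order of `g`. -/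
theorem exists_isArithFrobAt_pow_of_inert (L : Type*) [Field L] [NumberField L] [IsGalois ℚ L]
    (g : Gal(L/ℚ)) (p : ℕ) (hp : p.Prime)
    (𝔭 : Ideal (𝓞 (IntermediateField.fixedField (Subgroup.zpowers g))))
    (hN : Ideal.absNorm 𝔭 = p) (hf : 𝔭.inertiaDegIn (𝓞 L) = orderOf g)
    (_hunr : ∀ P : Ideal (𝓞 L), P.IsPrime → (p : 𝓞 L) ∈ P → P.ramificationIdx ℤ = 1) :
    ∃ (P : Ideal (𝓞 L)) (k : ℕ), P.IsPrime ∧ (p : 𝓞 L) ∈ P ∧ k.Coprime (orderOf g) ∧
      ∀ x : 𝓞 L, (g ^ k) • x - x ^ p ∈ P := by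
  classical
  have hG1 : IsGaloisGroup (Subgroup.zpowers g)
      (IntermediateField.fixedField (Subgroup.zpowers g)) L :=
    IsGaloisGroup.subgroup Gal(L/ℚ) ℚ L (Subgroup.zpowers g)
  have hG2 : IsGaloisGroup (Subgroup.zpowers g)
      (𝓞 (IntermediateField.fixedField (Subgroup.zpowers g))) (𝓞 L) :=
    IsGaloisGroup.of_isFractionRing (Subgroup.zpowers g)
      (𝓞 (IntermediateField.fixedField (Subgroup.zpowers g))) (𝓞 L)
      (IntermediateField.fixedField (Subgroup.zpowers g)) L
  have hinv := hG2.isInvariant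
  have hcomm := hG2.commutes
  -- `𝔭` is a non-zero prime
  have h𝔭prime : 𝔭.IsPrime :=
    Ideal.isPrime_of_irreducible_absNorm (by rw [hN]; exact hp)
  have h𝔭ne : 𝔭 ≠ ⊥ := by
    rintro rfl
    rw [Ideal.absNorm_bot] at hN
    exact hp.ne_zero hN.symm
  have h𝔭max : 𝔭.IsMaximal := h𝔭prime.isMaximal h𝔭ne
  -- a prime `P` of `𝓞 L` over `𝔭`
  obtain ⟨⟨P, hPprime, hPover⟩⟩ := (inferInstance : Nonempty (Ideal.primesOver 𝔭 (𝓞 L)))
  have hpmem𝔭 : ((p : ℕ) : 𝓞 (IntermediateField.fixedField (Subgroup.zpowers g))) ∈ 𝔭 := by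
    have := Ideal.absNorm_mem 𝔭
    rwa [hN] at this
  have hpP : (p : 𝓞 L) ∈ P := by
    have h1 : algebraMap (𝓞 (IntermediateField.fixedField (Subgroup.zpowers g))) (𝓞 L)
        ((p : ℕ) : 𝓞 (IntermediateField.fixedField (Subgroup.zpowers g))) ∈ P := by
      have h2 := hPover.over
      rw [h2] at hpmem𝔭
      exact hpmem𝔭
    simpa using h1
  have hPne : P ≠ ⊥ := by
    rintro rfl
    have : (p : 𝓞 L) = 0 := by simpa using hpP
    exact hp.ne_zero (by exact_mod_cast this)
  have hPmax : P.IsMaximal := hPprime.isMaximal hPne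
  have hfin : Finite (𝓞 L ⧸ P) := Ideal.finiteQuotientOfFreeOfNeBot P hPne
  -- the Frobenius
  obtain ⟨σ, hσ⟩ := IsArithFrobAt.exists_of_isInvariant
    (𝓞 (IntermediateField.fixedField (Subgroup.zpowers g))) (Subgroup.zpowers g) P
  have hunder : P.under (𝓞 (IntermediateField.fixedField (Subgroup.zpowers g))) = 𝔭 :=
    hPover.over.symm
  have hcard : Nat.card (𝓞 (IntermediateField.fixedField (Subgroup.zpowers g)) ⧸
      P.under (𝓞 (IntermediateField.fixedField (Subgroup.zpowers g)))) = p := by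
    rw [hunder, ← hN, Ideal.absNorm_apply, Submodule.cardQuot_apply]
  have hσ' : ∀ x : 𝓞 L, (σ : Gal(L/ℚ)) • x - x ^ p ∈ P := by
    intro x
    have := hσ x
    rw [hcard] at this
    exact this
  -- the residue field has `p ^ orderOf g` elements
  have hcardP : Nat.card (𝓞 L ⧸ P) = p ^ orderOf g := by
    have h1 := Ideal.absNorm_eq_pow_inertiaDeg'_of_liesOver P 𝔭 h𝔭prime h𝔭ne
    rw [Ideal.inertiaDeg'_eq_inertiaDeg 𝔭 P,
      ← Ideal.inertiaDegIn_eq_inertiaDeg 𝔭 P (Subgroup.zpowers g), hf, hN] at h1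
    rw [← h1, Ideal.absNorm_apply, Submodule.cardQuot_apply]
  -- the order of `σ`
  have hm0 : orderOf (σ : Gal(L/ℚ)) ≠ 0 := (orderOf_pos _).ne'
  have hdvd : orderOf (σ : Gal(L/ℚ)) ∣ orderOf g := orderOf_dvd_of_mem_zpowers σ.2
  have hle : orderOf g ≤ orderOf (σ : Gal(L/ℚ)) := by
    let _ : Field (𝓞 L ⧸ P) := Ideal.Quotient.field P
    refine frobGen_le_of_pow_eq (k := 𝓞 L ⧸ P) hp hcardP hm0 fun y => ?_
    obtain ⟨x, rfl⟩ := Ideal.Quotient.mk_surjective y
    have h1 := frobGen_pow_congr P (σ : Gal(L/ℚ)) p hσ' (orderOf (σ : Gal(L/ℚ))) x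
    rw [pow_orderOf_eq_one, one_smul] at h1
    rw [← map_pow]
    exact ((Ideal.Quotient.eq).mpr h1).symm
  have hord : orderOf (σ : Gal(L/ℚ)) = orderOf g :=
    le_antisymm (Nat.le_of_dvd (orderOf_pos g) hdvd) hle
  -- `σ = g ^ k`
  obtain ⟨k, hk⟩ : ∃ k : ℕ, g ^ k = (σ : Gal(L/ℚ)) :=
    (Submonoid.mem_powers_iff _ _).mp (mem_powers_iff_mem_zpowers.mpr σ.2)
  refine ⟨P, k, hPprime, hpP, ?_, fun x => ?_⟩
  · have h1 : orderOf (g ^ k) = orderOf g / Nat.gcd (orderOf g) k :=
      orderOf_pow g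
    rw [hk, hord] at h1
    have h2 : Nat.gcd (orderOf g) k = 1 := by
      have hpos := orderOf_pos g
      have hgpos : 0 < Nat.gcd (orderOf g) k := Nat.gcd_pos_of_pos_left _ hpos
      have h3 := Nat.div_mul_cancel (Nat.gcd_dvd_left (orderOf g) k)
      rw [← h1] at h3
      have h4 : orderOf g * Nat.gcd (orderOf g) k = orderOf g * 1 := by rw [h3, mul_one]
      exact Nat.eq_of_mul_eq_mul_left hpos h4
    rw [Nat.coprime_comm]
    exact h2
  · rw [hk]; exact hσ' x

end Fermat.Agent.FrobDensity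
end MergeWrap_Lib_FrobDensity_FrobGen

section MergeWrap_Lib_FrobDensity_Final -- from Lib/FrobDensity/Final.lean

set_option autoImplicit false

/-!
# The Frobenius density theorem (existence form) for `Gal(ℚ̄/ℚ)`
-/

namespace Fermat.Agent.FrobDensity

open NumberField IsDedekindDomain
open scoped Pointwise

attribute [local instance] FractionRing.liftAlgebra FractionRing.isScalarTower_liftAlgebra

section ramZ

variable (L : Type*) [Field L] [NumberField L]

/-- Only finitely many rational primes ramify in `L` (ramification index over `ℤ`). -/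
theorem finite_ramified_int :
    {p : ℕ | p.Prime ∧ ∃ P : Ideal (𝓞 L), P.IsPrime ∧ (p : 𝓞 L) ∈ P ∧
      P.ramificationIdx ℤ ≠ 1}.Finite := by
  have hD : differentIdeal ℤ (𝓞 L) ≠ ⊥ := differentIdeal_ne_bot
  have hfin := Ideal.finite_factors hD
  refine (hfin.image ratPrime).subset ?_
  rintro p ⟨hp, P, hP, hpP, hram⟩
  have hPbot : P ≠ ⊥ := by
    rintro rfl
    exact natCast_ne_zero_of_prime L hp (by simpa using hpP)
  refine ⟨⟨P, hP, hPbot⟩, ?_, ratPrime_eq_of_mem L hp ⟨P, hP, hPbot⟩ hpP⟩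
  show P ∣ differentIdeal ℤ (𝓞 L)
  rw [dvd_differentIdeal_iff]
  intro hunr
  exact hram (Ideal.ramificationIdx_eq_one_iff.mpr hunr)

end ramZ

section final

/-- `Gal(L/L^⟨g⟩)` is cyclic. -/
theorem isCyclic_gal_fixedField_zpowers {K L : Type*} [Field K] [Field L] [Algebra K L]
    [FiniteDimensional K L] (g : Gal(L/K)) :
    IsCyclic Gal(L/(IntermediateField.fixedField (Subgroup.zpowers g))) := by
  have h : (IntermediateField.fixedField (Subgroup.zpowers g)).fixingSubgroup =
      Subgroup.zpowers g := IntermediateField.fixingSubgroup_fixedField _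
  have h1 : IsCyclic (IntermediateField.fixedField (Subgroup.zpowers g)).fixingSubgroup := by
    rw [h]
    infer_instance
  exact isCyclic_of_surjective
    (IntermediateField.fixingSubgroupEquiv
      (IntermediateField.fixedField (Subgroup.zpowers g))).toMonoidHom
    (IntermediateField.fixingSubgroupEquiv _).surjective

/-- **Frobenius density theorem, existence form.** Let `L/ℚ` be a finite Galois extension inside
`ℚ̄`, `g ∈ Gal(L/ℚ)` and `S` a finite set of primes.  There are a prime `ℓ ∉ S`, a place `A` of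
`ℚ̄` over `ℓ`, a Frobenius element `τ` at `A` and an exponent `k` prime to the order of `g` such
that `τ` restricts to `g ^ k` on `L`. -/
theorem frobenius_density (L : IntermediateField ℚ (AlgebraicClosure ℚ)) [FiniteDimensional ℚ L]
    [IsGalois ℚ L] (g : L ≃ₐ[ℚ] L) (S : Finset ℕ) :
    ∃ (ℓ : ℕ) (A : ValuationSubring (AlgebraicClosure ℚ))
      (τ : AlgebraicClosure ℚ ≃ₐ[ℚ] AlgebraicClosure ℚ) (k : ℕ),
      ℓ.Prime ∧ ℓ ∉ S ∧ A.LiesOverPrime ℓ ∧ A.IsFrobeniusAt τ ℓ ∧ k.Coprime (orderOf g) ∧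
      AlgEquiv.restrictNormalHom L τ = g ^ k := by
  classical
  have : NumberField L := ⟨⟩
  have hcyc := isCyclic_gal_fixedField_zpowers g
  -- the bad primes
  have hS1 : {p : Nat.Primes | (p : ℕ) ∈ S}.Finite := by
    refine Set.Finite.of_finite_image (f := fun p : Nat.Primes => (p : ℕ))
      (S.finite_toSet.subset ?_) (fun p _ q _ hpq => Subtype.ext hpq)
    rintro _ ⟨p, hp, rfl⟩
    exact hp
  have hS2 : {p : Nat.Primes | ∃ P : Ideal (𝓞 L), P.IsPrime ∧ ((p : ℕ) : 𝓞 L) ∈ P ∧
      P.ramificationIdx ℤ ≠ 1}.Finite := by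
    refine Set.Finite.of_finite_image (f := fun p : Nat.Primes => (p : ℕ))
      ((finite_ramified_int L).subset ?_) (fun p _ q _ hpq => Subtype.ext hpq)
    rintro _ ⟨p, hp, rfl⟩
    exact ⟨p.2, hp⟩
  obtain ⟨p, 𝔭, hpS, hN, hf⟩ :=
    exists_inert (IntermediateField.fixedField (Subgroup.zpowers g)) L _ (hS1.union hS2)
  have hpS1 : (p : ℕ) ∉ S := fun h => hpS (Or.inl h)
  have hunr : ∀ P : Ideal (𝓞 L), P.IsPrime → ((p : ℕ) : 𝓞 L) ∈ P → P.ramificationIdx ℤ = 1 := by
    intro P hP hpP
    by_contra h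
    exact hpS (Or.inr ⟨P, hP, hpP, h⟩)
  have hf' : 𝔭.inertiaDegIn (𝓞 L) = orderOf g := by
    rw [hf, IntermediateField.finrank_fixedField_eq_card, Nat.card_zpowers]
  obtain ⟨P, k, hP, hpP, hk, hfrob⟩ :=
    exists_isArithFrobAt_pow_of_inert L g p p.2 𝔭 hN hf' hunr
  obtain ⟨A, τ, hA, -, hτ, hres⟩ :=
    Fermat.Agent.FrobBridge.exists_frobenius_of_prime L P p p.2 hpP (g ^ k) (by
      intro x
      refine ⟨(g ^ k) • x - x ^ (p : ℕ), hfrob x, ?_⟩
      have h1 : algebraMap (𝓞 L) L ((g ^ k) • x - x ^ (p : ℕ)) =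
          algebraMap (𝓞 L) L ((g ^ k) • x) - (algebraMap (𝓞 L) L x) ^ (p : ℕ) := by
        rw [map_sub, map_pow]
      exact h1.symm)
  exact ⟨p, A, τ, k, p.2, hpS1, hA, hτ, hk, hres⟩

end final

end Fermat.Agent.FrobDensity
end MergeWrap_Lib_FrobDensity_Final
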